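import Fermat.Agent.FF3.PGeo.KillsMul
import Fermat.Agent.BR.Inst.AnnulusInstFinal
import Fermat.Agent.BR.GenusAuxLevel
import Fermat.Agent.BR2.ResInst

/-!
# PROGRAMME I, block P, node P-GEO (4): GEO-IN at the level of the datum from (P1)

* `geoIn_of_torEps` : if `TorEps Dt` holds for the data `Dt` of Program B at every level `M' * p`
  with `X₀(M')` without elliptic points, then `GeoIn (M * p) p` for every `M` prime to `p`: the
  auxiliary prime `ℓ` is chosen by `GenusCount.exists_aux_level`, `M' := M * ℓ`, the data is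
  `AnnulusInstFinal.modularData_final`, and the auxiliary factor is removed by
  `killsNewAt_of_mul` (cost: the factor `alphaDeg (M * p) ℓ` in `e`).
-/

set_option autoImplicit false
set_option linter.unusedSectionVars false
set_option linter.style.haveILetI false

noncomputable section

set_option synthInstance.maxHeartbeats 400000

namespace Fermat.Agent.FF3.PGeo

open ModularCurve IsLocalRing
open Fermat.Agent.X0 Fermat.Agent.BR.Final Fermat.Agent.BR2 Fermat.Agent.BR
open Fermat.Agent.FF3.P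

/-- Transport of KILLS-NEW along an equality of levels. -/
theorem killsNewAt_congr {L L' M' p : ℕ} [NeZero L] [NeZero L'] [NeZero M'] [Fact p.Prime]
    (h : L = L') {P : ValuationSubring Kb} {e : ℕ} :
    KillsNewAt L M' p P e ↔ KillsNewAt L' M' p P e := by
  subst h
  exact Iff.rfl

/-- **GEO-IN from (P1)** at the auxiliary levels. -/
theorem geoIn_of_torEps {M p : ℕ} [NeZero M] [hp : Fact p.Prime] (hpM : ¬ p ∣ M)
    (hTE : ∀ (M' : ℕ) [NeZero M'], nuTwo M' = 0 → nuThree M' = 0 → ∀ (hpM' : ¬ p ∣ M')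
      (B : ValuationSubring Kb) (hB : B.LiesOverPrime p) [IsAlgClosed (ResidueField B)]
      (Dt : ModularData M' p B hB hpM'), TorEps Dt) :
    haveI : NeZero p := ⟨hp.out.ne_zero⟩
    GeoIn (M * p) p := by
  haveI : NeZero p := ⟨hp.out.ne_zero⟩
  intro P hP
  obtain ⟨ℓ, hℓ, -, hℓp, hℓM, -, h2, h3, -⟩ :=
    GenusCount.exists_aux_level (q := p) (M := M) (p := 1)
      (NeZero.ne p) (NeZero.ne M) one_ne_zero
  haveI : NeZero ℓ := ⟨hℓ.ne_zero⟩
  have hpM' : ¬ p ∣ M * ℓ := fun h =>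
    (hp.out.dvd_mul.mp h).elim hpM fun h' =>
      hℓp (by rw [(Nat.prime_dvd_prime_iff_eq hp.out hℓ).mp h'])
  haveI := ResInst.isAlgClosed_res P
  obtain ⟨e, he, hK⟩ := killsNewAt_of_torEps
    (Inst.AnnulusInstFinal.modularData_final P hP hpM')
    (hTE (M * ℓ) h2 h3 hpM' P hP (Inst.AnnulusInstFinal.modularData_final P hP hpM'))
  have hlev : M * ℓ * p = M * p * ℓ := by ring
  have hK' : KillsNewAt (M * p * ℓ) (M * ℓ) p P e := (killsNewAt_congr hlev).mp hK
  exact ⟨M * ℓ, inferInstance, e * LevelTransfer.alphaDeg (M * p) ℓ, hpM',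
    Nat.mul_ne_zero he (LevelTransfer.alphaDeg_ne_zero (M * p) ℓ), killsNewAt_of_mul hK'⟩

/-- **GEO-IN at the level of the datum of S33** (`p ∥ N`), from (P1) at the auxiliary levels. -/
theorem geoIn_of_dvd {N p : ℕ} [NeZero N] [hp : Fact p.Prime] (hN : p ∣ N ∧ ¬ p ^ 2 ∣ N)
    (hTE : ∀ (M' : ℕ) [NeZero M'], nuTwo M' = 0 → nuThree M' = 0 → ∀ (hpM' : ¬ p ∣ M')
      (B : ValuationSubring Kb) (hB : B.LiesOverPrime p) [IsAlgClosed (ResidueField B)]
      (Dt : ModularData M' p B hB hpM'), TorEps Dt) :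
    GeoIn N p := by
  obtain ⟨M, hM⟩ := hN.1
  have hNM : N = M * p := by rw [hM, mul_comm]
  have hM0 : M ≠ 0 := by
    rintro rfl
    exact NeZero.ne N (by rw [hNM, zero_mul])
  haveI : NeZero M := ⟨hM0⟩
  have hpM : ¬ p ∣ M := by
    rintro ⟨c, rfl⟩
    exact hN.2 ⟨c, by rw [hNM]; ring⟩
  subst hNM
  exact geoIn_of_torEps hpM hTE

end Fermat.Agent.FF3.PGeo
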