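import Fermat.Agent.BR2.GeoLevel

/-!
# PROGRAMME I, block P, node P-GEO (1): (G3) for inertia elements

`Dt : Final.ModularData M q B hB hqM` (the data of Program B at the level `M * q`), `s` in the
inertia group of `B`:

* `equivariant_inertia` : `Filt.Equivariant (setup Dt) (gal (M * q) s) (fun _ => 1)` — an inertia
  element preserves the two component valuation rings and acts trivially on their residues;
* `inertia_g3` : `m • w = 0 → s • w - w ∈ Filt.natSub (setup Dt) m` (no condition on `m`: in
  particular `m = q ^ k`).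
-/

set_option autoImplicit false
set_option linter.unusedSectionVars false
set_option linter.style.haveILetI false

noncomputable section

set_option synthInstance.maxHeartbeats 400000

namespace Fermat.Agent.FF3.PGeo

open ModularCurve AlgebraicCurve IsLocalRing
open Fermat.Agent.X0 Fermat.Agent.Val Fermat.Agent.Red Fermat.Agent.Hecke
open Fermat.Agent.BR.ValTwo Fermat.Agent.BR.SS Fermat.Agent.BR.Final
open Fermat.Agent.BR.S0.RedModular Fermat.Agent.BR.S0.PointDict
open Fermat.Agent.BR2 Fermat.Agent.BR2.G3PrepRes Fermat.Agent.BR2.SetupOfData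

local notation "GQ" => (AlgebraicClosure ℚ ≃ₐ[ℚ] AlgebraicClosure ℚ)

variable {M q : ℕ} [NeZero M] [hq : Fact q.Prime]
variable {B : ValuationSubring Kb} {hB : B.LiesOverPrime q} {hqM : ¬ q ∣ M}
variable [IsAlgClosed (ResidueField B)]

/-- Inertia acts trivially on the residues of both components. -/
theorem compW_res_smul_inertia {s : GQ} (hs : s ∈ B.inertiaSubgroupIn ℚ) (v : Fin 2)
    (y : Fb (M * q)) (hy : y ∈ (compW B hB hqM v).O)
    (hy' : gal (M * q) s • y ∈ (compW B hB hqM v).O) :
    (compW B hB hqM v).res ⟨gal (M * q) s • y, hy'⟩ = (compW B hB hqM v).res ⟨y, hy⟩ := by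
  apply Subtype.ext
  have h := coe_compW_res_smul_decomp hqM B hB (mem_decomposition_of_mem_inertiaIn hs) v y hy hy'
  rw [decompResAut_of_mem_inertiaSubgroupIn hs] at h
  rw [h]
  exact coeffMap_id _

/-- **An inertia element acts on the setup through the identity of both components.** -/
theorem equivariant_inertia (Dt : ModularData M q B hB hqM) {s : GQ}
    (hs : s ∈ B.inertiaSubgroupIn ℚ) :
    Filt.Equivariant (setup Dt) (gal (M * q) s) (fun _ => 1) := by
  refine (equivariant_iff Dt _ _).mpr ⟨?_, ?_, ?_, ?_⟩
  · intro v y hy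
    exact smul_mem_compW hqM B hB (mem_decomposition_of_mem_inertiaIn hs) v hy
  · intro v y hy hy'
    rw [one_smul]
    exact compW_res_smul_inertia hs v y hy hy'
  · intro e
    exact one_smul _ _
  · intro e
    exact one_smul _ _

/-- **(G3) for inertia.** -/
theorem inertia_g3 (Dt : ModularData M q B hB hqM) {s : GQ} (hs : s ∈ B.inertiaSubgroupIn ℚ)
    (m : ℕ) (w : JZero (M * q)) (hw : m • w = 0) :
    s • w - w ∈ Filt.natSub (setup Dt) m :=
  Filt.smul_sub_mem_natSub (equivariant_inertia Dt hs) hw

end Fermat.Agent.FF3.PGeo
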