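import Fermat.Agent.FF3.PGeo.KillsNew

/-!
# PROGRAMME I, block P, node P-GEO (3): lowering an auxiliary factor of the level

* `killsNewAt_of_mul` : `KillsNewAt (L * ℓ) M' p P e → KillsNewAt L M' p P (e * alphaDeg L ℓ)`
  (pattern of `LevelTransfer.unipInertiaWeakOn_of_mul`: `alphaUp`, `alphaDown_alphaUp`, Galois
  equivariance).
-/

set_option autoImplicit false
set_option linter.unusedSectionVars false
set_option linter.style.haveILetI false

noncomputable section

namespace Fermat.Agent.FF3.PGeo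

open ModularCurve IsLocalRing
open Fermat.Agent.X0 Fermat.Agent.BR Fermat.Agent.Pseudo Fermat.Agent.FF2.S32M Fermat.Agent.FF3.P

local notation "GQ" => (AlgebraicClosure ℚ ≃ₐ[ℚ] AlgebraicClosure ℚ)

section Generic

variable {G X Y : Type*} [Group G] [AddCommGroup X] [AddCommGroup Y] [DistribMulAction G X]
  [DistribMulAction G Y]

/-- An equivariant additive map commutes with the KILLS-NEW expression. -/
theorem map_killsExpr (φ : X →+ Y) (hφ : ∀ (g : G) (x : X), φ (g • x) = g • φ x) (e : ℕ)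
    (s s' : G) (c : ℤ) (u : G →₀ ℤ) (x : X) :
    φ (e • (s' • (s • fsAct X u x - fsAct X u x) - c • (s • fsAct X u x - fsAct X u x))) =
      e • (s' • (s • fsAct Y u (φ x) - fsAct Y u (φ x)) -
        c • (s • fsAct Y u (φ x) - fsAct Y u (φ x))) := by
  rw [map_nsmul, map_sub, map_zsmul, hφ, map_sub, hφ, map_fsAct φ hφ]

end Generic

/-- **Lowering an auxiliary factor `ℓ` of the level.** -/
theorem killsNewAt_of_mul {L ℓ M' p : ℕ} [NeZero L] [NeZero ℓ] [NeZero M'] [Fact p.Prime]
    {P : ValuationSubring Kb} {e : ℕ} (h : KillsNewAt (L * ℓ) M' p P e) :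
    KillsNewAt L M' p P (e * LevelTransfer.alphaDeg L ℓ) := by
  intro k s s' hs hs' u' hu' x hx
  have hx' : (p ^ k) • LevelTransfer.alphaUp L ℓ x = 0 := by rw [← map_nsmul, hx, map_zero]
  have h1 := h k s s' hs hs' u' hu' (LevelTransfer.alphaUp L ℓ x) hx'
  rw [← map_killsExpr (LevelTransfer.alphaUp L ℓ)
    (fun g x => LevelTransfer.alphaUp_smul L ℓ g x)] at h1
  have h2 := congrArg (LevelTransfer.alphaDown L ℓ) h1
  rw [LevelTransfer.alphaDown_alphaUp, map_zero, ← mul_nsmul] at h2
  exact h2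

end Fermat.Agent.FF3.PGeo
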