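import Fermat.Agent.FF3.P.Defs
import Fermat.Agent.FF3.PGeo.InertiaG3

/-!
# PROGRAMME I, block P, node P-GEO (2): from (P1) `TorEps` to KILLS-NEW at the level of the data

* `map_fsAct` : an equivariant additive map commutes with the action of `ℤ[G]`;
* `fsAct_nsmul_eq_zero` : `ℤ[G]` preserves the `n`-torsion;
* `killsNewAt_of_torEps` : `TorEps Dt → ∃ e ≠ 0, KillsNewAt (M * q) M q B e`.

Chain: `y := u' x` has `alphaDown y = u' (alphaDown x) = 0`, `betaDown y = 0` (Galois equivariance
of `alphaDown`, `betaDown`); `z := s y - y ∈ natSub (q ^ k)` by `inertia_g3`;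
`Ealpha z = Ebeta z = 0`; `e₀ z ∈ torSub (q ^ k)` by `GeoLevel.g5_of_data`; `TorEps` on `e₀ z`.
-/

set_option autoImplicit false
set_option linter.unusedSectionVars false
set_option linter.style.haveILetI false

noncomputable section

set_option synthInstance.maxHeartbeats 400000

namespace Fermat.Agent.FF3.PGeo

open ModularCurve IsLocalRing
open Fermat.Agent.X0 Fermat.Agent.BR.Final Fermat.Agent.BR2 Fermat.Agent.BR2.SetupOfData
open Fermat.Agent.BR Fermat.Agent.Pseudo Fermat.Agent.FF2.S32M Fermat.Agent.FF3.P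

local notation "GQ" => (AlgebraicClosure ℚ ≃ₐ[ℚ] AlgebraicClosure ℚ)

/-! ### generic lemmas on the action of `ℤ[G]` -/

section Generic

variable {G X Y : Type*} [Group G] [AddCommGroup X] [AddCommGroup Y] [DistribMulAction G X]
  [DistribMulAction G Y]

/-- An equivariant additive map commutes with the action of `ℤ[G]`. -/
theorem map_fsAct (φ : X →+ Y) (hφ : ∀ (g : G) (x : X), φ (g • x) = g • φ x) (u : G →₀ ℤ)
    (x : X) : φ (fsAct X u x) = fsAct Y u (φ x) := by
  induction u using Finsupp.induction_linear with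
  | zero => simp
  | add u v hu hv => simp only [map_add, AddMonoidHom.add_apply, hu, hv]
  | single g n => rw [fsAct_single, fsAct_single, map_zsmul, hφ]

/-- `ℤ[G]` preserves the `n`-torsion. -/
theorem fsAct_nsmul_eq_zero (u : G →₀ ℤ) {n : ℕ} {x : X} (hx : n • x = 0) :
    n • fsAct X u x = 0 := by
  rw [← map_nsmul, hx, map_zero]

/-- An equivariant additive map killing `y` kills `g • y - y`. -/
theorem map_smul_sub_eq_zero (φ : X →+ Y) (hφ : ∀ (g : G) (x : X), φ (g • x) = g • φ x) (g : G)
    {y : X} (hy : φ y = 0) : φ (g • y - y) = 0 := by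
  rw [map_sub, hφ, hy, smul_zero, sub_zero]

/-- Rearrangement of the integer factors. -/
theorem mul_nsmul_smul_sub (e e₀ : ℕ) (g : G) (c : ℤ) (z : X) :
    (e * e₀) • (g • z - c • z) = e • (g • (e₀ • z) - c • (e₀ • z)) := by
  rw [mul_smul, smul_sub, smul_comm e₀ g z, smul_comm e₀ c z]

end Generic

/-! ### from `TorEps` to KILLS-NEW -/

variable {M q : ℕ} [NeZero M] [hq : Fact q.Prime]
variable {B : ValuationSubring Kb} {hB : B.LiesOverPrime q} {hqM : ¬ q ∣ M}
variable [IsAlgClosed (ResidueField B)]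

/-- **From (P1) to KILLS-NEW at the level `M * q` of the data.** -/
theorem killsNewAt_of_torEps (Dt : ModularData M q B hB hqM) (h : TorEps Dt) :
    haveI : NeZero q := ⟨hq.out.ne_zero⟩
    ∃ e : ℕ, e ≠ 0 ∧ KillsNewAt (M * q) M q B e := by
  haveI : NeZero q := ⟨hq.out.ne_zero⟩
  obtain ⟨e, he, hTE⟩ := h
  obtain ⟨e₀, he₀, h5⟩ := GeoLevel.g5_of_data Dt
  refine ⟨e * e₀, Nat.mul_ne_zero he he₀, ?_⟩
  intro k s s' hs hs' u' hu' x hx
  set y : JZero (M * q) := fsAct (JZero (M * q)) u' x with hy
  -- `y` is killed by `q ^ k` and by the two degeneracy maps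
  have hyk : (q ^ k) • y = 0 := fsAct_nsmul_eq_zero u' hx
  have hya : LevelTransfer.alphaDown M q y = 0 := by
    rw [hy, map_fsAct (LevelTransfer.alphaDown M q) (fun g x => LevelTransfer.alphaDown_smul M q g x)]
    exact hu' _ (by rw [← map_nsmul, hx, map_zero])
  have hyb : LevelMaps.betaDown M q y = 0 := by
    rw [hy, map_fsAct (LevelMaps.betaDown M q) (fun g x => LevelMaps.betaDown_smul M q g x)]
    exact hu' _ (by rw [← map_nsmul, hx, map_zero])
  -- `z = s y - y` lies in the finite part and is killed by the two degeneracy maps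
  set z : JZero (M * q) := s • y - y with hz
  have hznat : z ∈ Filt.natSub (setup Dt) (q ^ k) := inertia_g3 Dt hs (q ^ k) y hyk
  have hza : LevelTransfer.alphaDown M q z = 0 :=
    map_smul_sub_eq_zero (LevelTransfer.alphaDown M q)
      (fun g x => LevelTransfer.alphaDown_smul M q g x) s hya
  have hzb : LevelMaps.betaDown M q z = 0 :=
    map_smul_sub_eq_zero (LevelMaps.betaDown M q)
      (fun g x => LevelMaps.betaDown_smul M q g x) s hyb
  have hzEa : LevelSquares.Ealpha M q z = 0 := by
    rw [LevelSquares.Ealpha_apply, hza, map_zero]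
  have hzEb : LevelSquares.Ebeta M q z = 0 := by
    rw [LevelSquares.Ebeta_apply, hzb, map_zero]
  -- (G5)
  have hztor : e₀ • z ∈ Filt.torSub (setup Dt) (q ^ k) :=
    h5 (q ^ k) (pow_ne_zero k hq.out.ne_zero) z hznat hzEa hzEb
  have h1 := hTE k s' hs' (e₀ • z) hztor (by rw [map_nsmul, hza, smul_zero])
    (by rw [map_nsmul, hzb, smul_zero])
  -- rearrange
  exact (mul_nsmul_smul_sub e e₀ s' (Cyclo.cycloLift (q ^ k) s') z).trans h1

end Fermat.Agent.FF3.PGeo
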